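/-
S44, node F, block (I1) (owner helper102): the constant term of `β f` vanishes, for `f` a cusp form
of weight two on `Γ₀(N)` and `β` a `Γ₀(N)`-invariant holomorphic function on the upper half plane,
meromorphic at the cusp `∞` and bounded at all the other cusps.   Definitions.
-/
import Mathlib

set_option autoImplicit false

namespace Fermat.Agent.S44.F.I1

open UpperHalfPlane hiding I
open Complex Filter Topology Function
open scoped Manifold Real MatrixGroups ModularForm

/-- `G` is a primitive of `g` on the upper half plane. -/
def IsPrim (G g : ℍ → ℂ) : Prop := ∀ τ : ℍ, HasDerivAt (G ∘ ofComplex) (g τ) ↑τ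

/-- `q = exp (2 π i τ)` -/
noncomputable def qq (τ : ℍ) : ℂ := Periodic.qParam 1 (τ : ℂ)

end Fermat.Agent.S44.F.I1
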