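/-
S44, node F, block (I1) (owner helper102), leaf G: the group theory.
-/
import Mathlib

set_option autoImplicit false

namespace Fermat.Agent.S44.F.I1

open CongruenceSubgroup
open scoped MatrixGroups

/-- an additive function on `SL(2, ℤ)` with values in `ℂ` vanishes -/
theorem additive_eq_zero (lam : SL(2, ℤ) → ℂ) (h : ∀ a b, lam (a * b) = lam a + lam b)
    (δ : SL(2, ℤ)) : lam δ = 0 := by
  have h1 : lam 1 = 0 := by
    have := h 1 1
    rw [mul_one] at this
    linear_combination -this
  have hpow : ∀ (a : SL(2, ℤ)) (n : ℕ), lam (a ^ n) = n * lam a := by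
    intro a n
    induction n with
    | zero => simp [h1]
    | succ n ih =>
      rw [pow_succ, h, ih]
      push_cast
      ring
  have hinv : ∀ a : SL(2, ℤ), lam a = 0 → lam a⁻¹ = 0 := by
    intro a ha
    have := h a a⁻¹
    rw [mul_inv_cancel, h1, ha] at this
    linear_combination -this
  have hS4 : ModularGroup.S ^ 4 = 1 := by
    ext i j
    fin_cases i <;> fin_cases j <;>
      simp [pow_succ, ModularGroup.S, Matrix.mul_apply, Fin.sum_univ_two]
  have hST6 : (ModularGroup.S * ModularGroup.T) ^ 6 = 1 := by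
    ext i j
    fin_cases i <;> fin_cases j <;>
      simp [pow_succ, ModularGroup.S, ModularGroup.T, Matrix.mul_apply, Fin.sum_univ_two]
  have hS : lam ModularGroup.S = 0 := by
    have := hpow ModularGroup.S 4
    rw [hS4, h1] at this
    have h4 : ((4 : ℕ) : ℂ) ≠ 0 := by norm_num
    exact (mul_eq_zero.1 this.symm).resolve_left h4
  have hST : lam (ModularGroup.S * ModularGroup.T) = 0 := by
    have := hpow (ModularGroup.S * ModularGroup.T) 6
    rw [hST6, h1] at this
    have h6 : ((6 : ℕ) : ℂ) ≠ 0 := by norm_num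
    exact (mul_eq_zero.1 this.symm).resolve_left h6
  have hT : lam ModularGroup.T = 0 := by
    rw [h, hS, zero_add] at hST
    exact hST
  have hδ : δ ∈ Subgroup.closure ({ModularGroup.S, ModularGroup.T} : Set SL(2, ℤ)) := by
    rw [_root_.SpecialLinearGroup.SL2Z_generators]
    exact Subgroup.mem_top δ
  induction hδ using Subgroup.closure_induction with
  | mem x hx =>
    rcases hx with rfl | rfl
    · exact hS
    · exact hT
  | one => exact h1
  | mul x y _ _ hx hy => rw [h, hx, hy, add_zero]
  | inv x _ hx => exact hinv x hx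

theorem conj_T_pow_mem (N : ℕ) (δ : SL(2, ℤ)) : δ * ModularGroup.T ^ N * δ⁻¹ ∈ Gamma0 N := by
  rw [Gamma0_mem]
  have hT : (ModularGroup.T ^ N : SL(2, ℤ)).1 = !![1, (N : ℤ); 0, 1] := by
    have := ModularGroup.coe_T_zpow (N : ℤ)
    rwa [zpow_natCast] at this
  have h1 : (δ * ModularGroup.T ^ N * δ⁻¹) 1 0 = -(N : ℤ) * (δ 1 0 * δ 1 0) := by
    rw [Matrix.SpecialLinearGroup.SL2_inv_expl]
    simp only [Matrix.SpecialLinearGroup.coe_mul, hT, Matrix.mul_apply, Fin.sum_univ_two]
    simp
    ring
  rw [h1]
  push_cast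
  simp

end Fermat.Agent.S44.F.I1
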