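/-
S44, node F, block (I1) (owner helper102), leaf P: calculus of primitives on the upper half plane.
-/
import Fermat.Agent.S44.F.I1.Defs
import Fermat.Agent.S21.Primitive
import Fermat.Agent.S22.Primitive

set_option autoImplicit false

namespace Fermat.Agent.S44.F.I1

open UpperHalfPlane hiding I
open Complex Filter Topology Function CongruenceSubgroup ModularFormClass
open scoped Manifold Real MatrixGroups ModularForm

/-! ### Leaf P: calculus of primitives -/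

theorem IsPrim.add {G G' g g' : ℍ → ℂ} (h : IsPrim G g) (h' : IsPrim G' g') :
    IsPrim (G + G') (g + g') := fun τ => (h τ).add (h' τ)

theorem IsPrim.const_mul (c : ℂ) {G g : ℍ → ℂ} (h : IsPrim G g) :
    IsPrim (fun τ => c * G τ) (fun τ => c * g τ) := fun τ => (h τ).const_mul c

theorem IsPrim.sum {ι : Type*} (s : Finset ι) {G g : ι → ℍ → ℂ} (h : ∀ i ∈ s, IsPrim (G i) (g i)) :
    IsPrim (fun τ => ∑ i ∈ s, G i τ) (fun τ => ∑ i ∈ s, g i τ) := by
  intro τ
  have h1 := HasDerivAt.fun_sum (u := s) (A := fun i => G i ∘ ofComplex) (A' := fun i => g i τ)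
    (x := (τ : ℂ)) (fun i hi => h i hi τ)
  exact h1

/-- two primitives of the same function differ by a constant -/
theorem IsPrim.sub_const {G G' g : ℍ → ℂ} (h : IsPrim G g) (h' : IsPrim G' g) (τ τ' : ℍ) :
    G τ - G' τ = G τ' - G' τ' := by
  have hH : ∀ w : ℍ, HasDerivAt ((fun w : ℍ => G w - G' w) ∘ ofComplex) 0 w := by
    intro w
    have := (h w).sub (h' w)
    rw [sub_self] at this
    exact this
  exact S21.eq_of_hasDerivAt_zero hH τ τ'

theorem IsPrim.comp_smul {G g : ℍ → ℂ} (h : IsPrim G g) (δ : SL(2, ℤ)) :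
    IsPrim (fun τ => G (δ • τ)) (g ∣[(2 : ℤ)] δ) := fun τ => S21.hasDerivAt_comp_smul h δ τ

theorem isPrim_coe : IsPrim (fun τ : ℍ => (τ : ℂ)) (fun _ => 1) := by
  intro τ
  have hev : ((fun τ : ℍ => (τ : ℂ)) ∘ ofComplex) =ᶠ[𝓝 (τ : ℂ)] fun z => z := by
    filter_upwards [isOpen_upperHalfPlaneSet.mem_nhds τ.im_pos] with w hw
    simp [ofComplex_apply_of_im_pos hw]
  exact (hasDerivAt_id' (τ : ℂ)).congr_of_eventuallyEq hev

theorem qq_ne_zero (τ : ℍ) : qq τ ≠ 0 := Periodic.qParam_ne_zero _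

theorem isPrim_qq_zpow (l : ℤ) (hl : l ≠ 0) :
    IsPrim (fun τ => qq τ ^ l / (2 * π * I * l)) (fun τ => qq τ ^ l) := by
  intro τ
  have hq0 : Periodic.qParam 1 (τ : ℂ) ≠ 0 := Periodic.qParam_ne_zero _
  have h1 := S22.hasDerivAt_qParam 1 (τ : ℂ)
  have h2 := (hasDerivAt_zpow l (Periodic.qParam 1 (τ : ℂ)) (Or.inl hq0)).comp (τ : ℂ) h1
  have h3 := h2.div_const (2 * π * I * l)
  have hev : ((fun τ : ℍ => qq τ ^ l / (2 * π * I * l)) ∘ ofComplex) =ᶠ[𝓝 (τ : ℂ)]
      fun z => ((fun x : ℂ => x ^ l) ∘ Periodic.qParam 1) z / (2 * π * I * l) := by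
    filter_upwards [isOpen_upperHalfPlaneSet.mem_nhds τ.im_pos] with w hw
    simp [ofComplex_apply_of_im_pos hw, qq]
  refine (h3.congr_of_eventuallyEq hev).congr_deriv ?_
  have hc : (2 * π * I : ℂ) ≠ 0 := Complex.two_pi_I_ne_zero
  have hl' : (l : ℂ) ≠ 0 := by exact_mod_cast hl
  have hz : Periodic.qParam 1 (τ : ℂ) ^ l
      = Periodic.qParam 1 (τ : ℂ) ^ (l - 1) * Periodic.qParam 1 (τ : ℂ) := by
    rw [← zpow_add_one₀ hq0, sub_add_cancel]
  simp only [qq]
  rw [hz]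
  field_simp
  simp

theorem coe_T_zpow_smul' (n : ℕ) (τ : ℍ) : ((ModularGroup.T ^ n • τ : ℍ) : ℂ) = (τ : ℂ) + n := by
  have h := UpperHalfPlane.modular_T_zpow_smul τ (n : ℤ)
  rw [zpow_natCast] at h
  rw [h]
  simp [add_comm]

theorem qq_T_smul (τ : ℍ) : qq (ModularGroup.T • τ) = qq τ := by
  have h := coe_T_zpow_smul' 1 τ
  rw [pow_one] at h
  unfold qq
  rw [h]
  unfold Periodic.qParam
  have e : 2 * (π : ℂ) * I * ((τ : ℂ) + ((1 : ℕ) : ℂ)) / ((1 : ℝ) : ℂ)
      = 2 * (π : ℂ) * I * (τ : ℂ) / ((1 : ℝ) : ℂ) + 2 * π * I := by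
    push_cast
    ring
  rw [e, Complex.exp_add, Complex.exp_two_pi_mul_I, mul_one]

/-- a holomorphic function which is invariant under `T ^ L` and vanishes at `i∞` has a primitive
which is invariant under `T ^ L` -/
theorem exists_periodic_prim {L : ℕ} (hL : 0 < L) {φ : ℍ → ℂ} (hhol : MDiff φ)
    (hper : ∀ τ, φ (ModularGroup.T ^ L • τ) = φ τ) (hzero : IsZeroAtImInfty φ) :
    ∃ ψ : ℍ → ℂ, IsPrim ψ φ ∧ ∀ τ, ψ (ModularGroup.T ^ L • τ) = ψ τ := by
  have hL' : (0 : ℝ) < (L : ℝ) := by exact_mod_cast hL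
  have hper' : Periodic (φ ∘ ofComplex) ((L : ℝ) : ℂ) := by
    intro z
    simp only [Function.comp_apply]
    by_cases hz : 0 < z.im
    · have hz' : 0 < (z + ((L : ℝ) : ℂ)).im := by simpa using hz
      rw [ofComplex_apply_of_im_pos hz, ofComplex_apply_of_im_pos hz', ← hper ⟨z, hz⟩]
      congr 1
      apply UpperHalfPlane.ext
      rw [coe_T_zpow_smul']
      simp
    · have hz' : ¬ 0 < (z + ((L : ℝ) : ℂ)).im := by simpa using hz
      rw [ofComplex_apply_of_im_nonpos (not_lt.1 hz), ofComplex_apply_of_im_nonpos (not_lt.1 hz')]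
  obtain ⟨ψ, hψper, -, -, hψ, -⟩ := S22.exists_decaying_primitive hL' hper' hhol hzero
  refine ⟨ψ, hψ, fun τ => ?_⟩
  have h1 := hψper (τ : ℂ)
  simp only [Function.comp_apply, ofComplex_apply] at h1
  rw [← h1]
  congr 1
  apply UpperHalfPlane.ext
  rw [coe_T_zpow_smul']
  have hz' : 0 < ((τ : ℂ) + ((L : ℝ) : ℂ)).im := by simpa using τ.im_pos
  rw [ofComplex_apply_of_im_pos hz']
  simp

end Fermat.Agent.S44.F.I1
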