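/-
S44, node F, block (I1) (owner helper102): the abstract core.  A primitive `G` of a function `g` of
weight two for `Γ₀(N)`, all of whose translates `G ∘ γ`, `γ ∉ Γ₀(N)`, are invariant under `T ^ L`, is
itself invariant under `T ^ L`.
-/
import Fermat.Agent.S44.F.I1.Prim
import Fermat.Agent.S44.F.I1.Group

set_option autoImplicit false

namespace Fermat.Agent.S44.F.I1

open UpperHalfPlane hiding I
open Complex Filter Topology Function CongruenceSubgroup
open scoped Manifold Real MatrixGroups ModularForm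

/-- the coset space is finite -/
noncomputable local instance fintypeQuot (N : ℕ) [NeZero N] : Fintype (SL(2, ℤ) ⧸ Gamma0 N) :=
  Fintype.ofFinite _

section

variable {N : ℕ} {G g : ℍ → ℂ}

/-- `g|γ⁻¹` only depends on the left coset `γ Γ₀(N)` -/
theorem slash_inv_out (hg : ∀ γ ∈ Gamma0 N, g ∣[(2 : ℤ)] γ = g) (γ : SL(2, ℤ)) :
    g ∣[(2 : ℤ)] ((QuotientGroup.mk γ : SL(2, ℤ) ⧸ Gamma0 N).out)⁻¹ = g ∣[(2 : ℤ)] γ⁻¹ := by
  set r := (QuotientGroup.mk γ : SL(2, ℤ) ⧸ Gamma0 N).out with hr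
  have h1 : (QuotientGroup.mk r : SL(2, ℤ) ⧸ Gamma0 N) = QuotientGroup.mk γ :=
    QuotientGroup.out_eq' _
  have h2 : r⁻¹ * γ ∈ Gamma0 N := QuotientGroup.eq.1 h1
  have h3 : r⁻¹ = (r⁻¹ * γ) * γ⁻¹ := by group
  rw [h3, SlashAction.slash_mul, hg _ h2]

/-- the sum of the translates of `G` -/
noncomputable def Theta (N : ℕ) [NeZero N] (G : ℍ → ℂ) (τ : ℍ) : ℂ :=
  ∑ q : SL(2, ℤ) ⧸ Gamma0 N, G (q.out⁻¹ • τ)

/-- the sum of the translates of `g` -/
noncomputable def traceFn (N : ℕ) [NeZero N] (g : ℍ → ℂ) (τ : ℍ) : ℂ :=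
  ∑ q : SL(2, ℤ) ⧸ Gamma0 N, (g ∣[(2 : ℤ)] q.out⁻¹) τ

theorem isPrim_Theta [NeZero N] (hG : IsPrim G g) : IsPrim (Theta N G) (traceFn N g) := by
  exact IsPrim.sum Finset.univ (G := fun (q : SL(2, ℤ) ⧸ Gamma0 N) τ => G (q.out⁻¹ • τ))
    (g := fun q => g ∣[(2 : ℤ)] q.out⁻¹) fun q _ => hG.comp_smul _

theorem isPrim_Theta_smul [NeZero N] (hG : IsPrim G g) (hg : ∀ γ ∈ Gamma0 N, g ∣[(2 : ℤ)] γ = g)
    (δ : SL(2, ℤ)) : IsPrim (fun τ => Theta N G (δ • τ)) (traceFn N g) := by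
  have h1 : IsPrim (fun τ => Theta N G (δ • τ))
      (fun τ => ∑ q : SL(2, ℤ) ⧸ Gamma0 N, (g ∣[(2 : ℤ)] (q.out⁻¹ * δ)) τ) := by
    have := IsPrim.sum Finset.univ (G := fun (q : SL(2, ℤ) ⧸ Gamma0 N) τ => G ((q.out⁻¹ * δ) • τ))
      (g := fun q => g ∣[(2 : ℤ)] (q.out⁻¹ * δ)) fun q _ => hG.comp_smul _
    simpa only [Theta, mul_smul] using this
  have h2 : (fun τ => ∑ q : SL(2, ℤ) ⧸ Gamma0 N, (g ∣[(2 : ℤ)] (q.out⁻¹ * δ)) τ) =
      traceFn N g := by
    funext τ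
    unfold traceFn
    have h3 : ∀ q : SL(2, ℤ) ⧸ Gamma0 N,
        g ∣[(2 : ℤ)] (q.out⁻¹ * δ) = g ∣[(2 : ℤ)] ((δ⁻¹ • q).out)⁻¹ := by
      intro q
      have h4 : δ⁻¹ • q = (QuotientGroup.mk (δ⁻¹ * q.out) : SL(2, ℤ) ⧸ Gamma0 N) := by
        conv_lhs => rw [← QuotientGroup.out_eq' q]
        rfl
      rw [h4, slash_inv_out hg]
      congr 1
      group
    simp_rw [h3]
    exact Equiv.sum_comp (MulAction.toPerm δ⁻¹ : Equiv.Perm (SL(2, ℤ) ⧸ Gamma0 N))
      (fun q => (g ∣[(2 : ℤ)] q.out⁻¹) τ)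
  rw [← h2]
  exact h1

end

/-- **The abstract core.** -/
theorem core (N : ℕ) [NeZero N] {G g : ℍ → ℂ} (hG : IsPrim G g)
    (hg : ∀ γ ∈ Gamma0 N, g ∣[(2 : ℤ)] γ = g) (L : ℕ)
    (hper : ∀ γ : SL(2, ℤ), γ ∉ Gamma0 N → ∀ τ, G (γ • (ModularGroup.T ^ L • τ)) = G (γ • τ))
    (τ : ℍ) : G (ModularGroup.T ^ L • τ) = G τ := by
  classical
  -- the additive function
  let lam : SL(2, ℤ) → ℂ := fun δ => Theta N G (δ • UpperHalfPlane.I) - Theta N G UpperHalfPlane.I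
  have hlam : ∀ (δ : SL(2, ℤ)) (z : ℍ), Theta N G (δ • z) - Theta N G z = lam δ := fun δ z =>
    (isPrim_Theta_smul hG hg δ).sub_const (isPrim_Theta hG) z UpperHalfPlane.I
  have hadd : ∀ a b, lam (a * b) = lam a + lam b := by
    intro a b
    have h1 := hlam a (b • UpperHalfPlane.I)
    have h2 := hlam b UpperHalfPlane.I
    show Theta N G ((a * b) • UpperHalfPlane.I) - Theta N G UpperHalfPlane.I = lam a + lam b
    rw [mul_smul, ← h1, ← h2]
    ring
  have h0 := hlam (ModularGroup.T ^ L) τ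
  rw [additive_eq_zero lam hadd] at h0
  -- evaluate the difference coset by coset
  have hterm : ∀ q : SL(2, ℤ) ⧸ Gamma0 N,
      G (q.out⁻¹ • (ModularGroup.T ^ L • τ)) - G (q.out⁻¹ • τ) =
        if q = QuotientGroup.mk 1 then G (ModularGroup.T ^ L • τ) - G τ else 0 := by
    intro q
    split_ifs with hq
    · have hmem : q.out⁻¹ ∈ Gamma0 N := by
        have h1 : (QuotientGroup.mk q.out : SL(2, ℤ) ⧸ Gamma0 N) = QuotientGroup.mk 1 := by
          rw [QuotientGroup.out_eq', hq]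
        have h2 := QuotientGroup.eq.1 h1
        simpa using h2
      have h3 : IsPrim (fun z => G (q.out⁻¹ • z)) g := by
        have := hG.comp_smul q.out⁻¹
        rwa [hg _ hmem] at this
      have h4 := h3.sub_const hG (ModularGroup.T ^ L • τ) τ
      linear_combination h4
    · have hmem : q.out⁻¹ ∉ Gamma0 N := by
        intro h
        apply hq
        rw [← QuotientGroup.out_eq' q]
        apply QuotientGroup.eq.2
        simpa using h
      rw [hper _ hmem, sub_self]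
  have hsum : Theta N G (ModularGroup.T ^ L • τ) - Theta N G τ =
      G (ModularGroup.T ^ L • τ) - G τ := by
    unfold Theta
    rw [← Finset.sum_sub_distrib]
    simp_rw [hterm]
    simp
  rw [hsum] at h0
  exact sub_eq_zero.1 h0

end Fermat.Agent.S44.F.I1
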