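/-
S44, node F, block (I1), leaf A1 (task F-I1-A1, helper31): the tail
`q⁻ⁿ (f - ∑_{j ≤ n} a_j q^j)` of the `q`-expansion of a cusp form is holomorphic, `T`-invariant and
vanishes at `i∞`.
-/
import Fermat.Agent.S44.F.I1.Defs
import Fermat.Agent.S49.Basic

set_option autoImplicit false

namespace Fermat.Agent.S44.F.I1

open UpperHalfPlane hiding I
open Complex Filter Topology Function CongruenceSubgroup ModularFormClass
open scoped Manifold Real MatrixGroups ModularForm

/-- the tail of the `q`-expansion of a cusp form -/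
noncomputable def tail {N : ℕ} (f : CuspForm (Gamma0 N) 2) (n : ℕ) (τ : ℍ) : ℂ :=
  qq τ ^ (-(n : ℤ)) * (f τ - ∑ j ∈ Finset.Icc 1 n, qCoeff f j * qq τ ^ j)

private theorem tail_qq_ne_zero (τ : ℍ) : qq τ ≠ 0 := Periodic.qParam_ne_zero _

private theorem tail_qq_T (τ : ℍ) : qq (ModularGroup.T • τ) = qq τ := by
  unfold qq
  rw [UpperHalfPlane.modular_T_smul, UpperHalfPlane.coe_vadd]
  unfold Periodic.qParam
  have e : 2 * (π : ℂ) * I * (((1 : ℝ) : ℂ) + (τ : ℂ)) / ((1 : ℝ) : ℂ) =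
      2 * (π : ℂ) * I * (τ : ℂ) / ((1 : ℝ) : ℂ) + 2 * π * I := by
    push_cast
    ring
  rw [e, Complex.exp_add, Complex.exp_two_pi_mul_I, mul_one]

private theorem tail_qq_mdiff : MDiff qq := by
  intro τ
  rw [UpperHalfPlane.mdifferentiableAt_iff]
  have h1 : DifferentiableAt ℂ (fun z : ℂ => Periodic.qParam 1 z) (τ : ℂ) := by
    unfold Periodic.qParam
    fun_prop
  refine h1.congr_of_eventuallyEq ?_
  filter_upwards [UpperHalfPlane.isOpen_upperHalfPlaneSet.mem_nhds τ.im_pos] with z hz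
  simp only [Function.comp_apply, qq]
  rw [UpperHalfPlane.ofComplex_apply_of_im_pos hz]

theorem tail_mdiff {N : ℕ} (f : CuspForm (Gamma0 N) 2) (n : ℕ) : MDiff (tail f n) := by
  intro τ
  rw [UpperHalfPlane.mdifferentiableAt_iff]
  have hq : DifferentiableAt ℂ (qq ∘ ofComplex) (τ : ℂ) :=
    UpperHalfPlane.mdifferentiableAt_iff.1 (tail_qq_mdiff τ)
  have hf : DifferentiableAt ℂ (f ∘ ofComplex) (τ : ℂ) :=
    UpperHalfPlane.mdifferentiableAt_iff.1 (ModularFormClass.holo f τ)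
  have hne : (qq ∘ ofComplex) (τ : ℂ) ≠ 0 := tail_qq_ne_zero _
  have e : tail f n ∘ ofComplex = fun z : ℂ => (qq ∘ ofComplex) z ^ (-(n : ℤ)) *
      ((f ∘ ofComplex) z - ∑ j ∈ Finset.Icc 1 n, qCoeff f j * (qq ∘ ofComplex) z ^ j) := rfl
  rw [e]
  refine DifferentiableAt.mul (hq.zpow (Or.inl hne)) (hf.sub ?_)
  refine DifferentiableAt.fun_sum fun j _ => ?_
  exact (differentiableAt_const _).mul (hq.pow j)

theorem tail_T {N : ℕ} (f : CuspForm (Gamma0 N) 2) (n : ℕ) (τ : ℍ) :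
    tail f n (ModularGroup.T • τ) = tail f n τ := by
  have hf : f (ModularGroup.T • τ) = f τ := by
    have h := SlashInvariantFormClass.periodic_comp_ofComplex f (S49.hΓ N) (τ : ℂ)
    simp only [Function.comp_apply, ofComplex_apply] at h
    rw [← h, UpperHalfPlane.modular_T_smul]
    congr 1
    have h2 : (((1 : ℝ) +ᵥ τ : ℍ) : ℂ) = (τ : ℂ) + ((1 : ℝ) : ℂ) := by
      rw [UpperHalfPlane.coe_vadd, add_comm]
    rw [← h2, ofComplex_apply]
  unfold tail
  rw [tail_qq_T, hf]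

theorem tail_zero {N : ℕ} (f : CuspForm (Gamma0 N) 2) (n : ℕ) : IsZeroAtImInfty (tail f n) := by
  have hper := SlashInvariantFormClass.periodic_comp_ofComplex f (S49.hΓ N)
  have : Fact (IsCusp OnePoint.infty
      (Subgroup.map (Matrix.SpecialLinearGroup.mapGL ℝ) (Gamma0 N))) :=
    ⟨Subgroup.isCusp_of_mem_strictPeriods one_pos (S49.hΓ N)⟩
  have hhol : MDiff (f : ℍ → ℂ) := ModularFormClass.holo f
  have hbdd : IsBoundedAtImInfty (f : ℍ → ℂ) := ModularFormClass.bdd_at_infty f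
  have han := UpperHalfPlane.analyticAt_cuspFunction_zero one_pos hper hhol hbdd
  have hps := (UpperHalfPlane.hasFPowerSeriesOnBall_cuspFunction (c := fun m => qCoeff f m)
    one_pos han (fun τ => UpperHalfPlane.hasSum_qExpansion one_pos hper hhol hbdd τ)).hasFPowerSeriesAt
  have hO := hps.isBigO_sub_partialSum_pow (n + 1)
  -- pull back along `qq`
  have hqt : Tendsto qq atImInfty (𝓝 0) := UpperHalfPlane.qParam_tendsto_atImInfty one_pos
  have hO' := hO.comp_tendsto hqt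
  -- identify
  have e : ∀ τ : ℍ, tail f n τ = qq τ ^ (-(n : ℤ)) *
      (cuspFunction 1 f (0 + qq τ) -
        (FormalMultilinearSeries.ofScalars ℂ fun m => qCoeff f m).partialSum (n + 1) (qq τ)) := by
    intro τ
    unfold tail
    congr 1
    rw [zero_add]
    have h1 : cuspFunction 1 f (qq τ) = f τ := UpperHalfPlane.eq_cuspFunction τ one_ne_zero hper
    rw [h1]
    congr 1
    rw [FormalMultilinearSeries.partialSum, Finset.sum_range_succ']
    simp only [FormalMultilinearSeries.ofScalars_apply_eq, smul_eq_mul]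
    rw [S49.qCoeff_zero_index, zero_mul, add_zero, Finset.range_eq_Ico,
      Finset.sum_Ico_add' (fun j => qCoeff f j * qq τ ^ j) 0 n 1]
    rfl
  have hn : ∀ τ : ℍ, ‖tail f n τ‖ = ‖qq τ‖ ^ (-(n : ℤ)) *
      ‖cuspFunction 1 f (0 + qq τ) -
        (FormalMultilinearSeries.ofScalars ℂ fun m => qCoeff f m).partialSum (n + 1) (qq τ)‖ := by
    intro τ
    rw [e, norm_mul, norm_zpow]
  obtain ⟨C, hC⟩ := hO'.bound
  unfold IsZeroAtImInfty ZeroAtFilter
  rw [tendsto_zero_iff_norm_tendsto_zero]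
  have hlim : Tendsto (fun τ : ℍ => C * ‖qq τ‖) atImInfty (𝓝 0) := by
    have := (tendsto_zero_iff_norm_tendsto_zero.1 hqt).const_mul C
    simpa using this
  refine squeeze_zero' (Eventually.of_forall fun τ => norm_nonneg _) ?_ hlim
  filter_upwards [hC] with τ hτ
  simp only [Function.comp_apply, norm_pow, norm_norm] at hτ
  rw [hn]
  have hpos : 0 < ‖qq τ‖ := norm_pos_iff.2 (tail_qq_ne_zero τ)
  calc ‖qq τ‖ ^ (-(n : ℤ)) * _ ≤ ‖qq τ‖ ^ (-(n : ℤ)) * (C * ‖qq τ‖ ^ (n + 1)) :=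
        mul_le_mul_of_nonneg_left hτ (zpow_nonneg hpos.le _)
    _ = C * ‖qq τ‖ := by
        rw [zpow_neg, zpow_natCast, pow_succ]
        field_simp

end Fermat.Agent.S44.F.I1
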