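/-
S44, node F, block (I1), leaf A2: a primitive of `β f` with period `∑ c_n a_n(f)`.
-/
import Fermat.Agent.S44.F.I1.Defs
import Fermat.Agent.S44.F.I1.Prim
import Fermat.Agent.S44.F.I1.Tail

set_option autoImplicit false

namespace Fermat.Agent.S44.F.I1

open UpperHalfPlane hiding I
open Complex Filter Topology Function CongruenceSubgroup ModularFormClass
open scoped Manifold Real MatrixGroups ModularForm

/-- a function which has a derivative everywhere is holomorphic -/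
theorem IsPrim.infty_mdiff {G g : ℍ → ℂ} (h : IsPrim G g) : MDiff G := by
  rw [UpperHalfPlane.mdifferentiable_iff]
  intro z hz
  exact (h ⟨z, hz⟩).differentiableAt.differentiableWithinAt

/-- a primitive of `q ^ l` with period `1` if `l = 0` and `0` otherwise -/
theorem infty_exists_prim_qq_zpow (l : ℤ) : ∃ P : ℍ → ℂ, IsPrim P (fun τ => qq τ ^ l) ∧
    ∀ τ, P (ModularGroup.T • τ) - P τ = if l = 0 then 1 else 0 := by
  by_cases hl : l = 0
  · subst hl
    refine ⟨fun τ : ℍ => (τ : ℂ), ?_, fun τ => ?_⟩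
    · have h := isPrim_coe
      have e : (fun τ : ℍ => qq τ ^ (0 : ℤ)) = fun _ => 1 := by
        funext τ
        exact zpow_zero _
      rw [e]
      exact h
    · have h := coe_T_zpow_smul' 1 τ
      rw [pow_one] at h
      show ((ModularGroup.T • τ : ℍ) : ℂ) - (τ : ℂ) = if (0 : ℤ) = 0 then 1 else 0
      rw [if_pos rfl, h]
      push_cast
      ring
  · refine ⟨fun τ => qq τ ^ l / (2 * π * I * l), isPrim_qq_zpow l hl, fun τ => ?_⟩
    show qq (ModularGroup.T • τ) ^ l / (2 * π * I * l) - qq τ ^ l / (2 * π * I * l) = _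
    rw [if_neg hl, qq_T_smul, sub_self]

theorem infty_tail_zero_eq {N : ℕ} (f : CuspForm (Gamma0 N) 2) : tail f 0 = f := by
  funext τ
  simp [tail]

/-- a primitive of `q⁻ⁿ f` with period `a_n(f)` -/
theorem exists_prim_qpow_mul {N : ℕ} (f : CuspForm (Gamma0 N) 2) (n : ℕ) (hn : 1 ≤ n) :
    ∃ F : ℍ → ℂ, IsPrim F (fun τ => qq τ ^ (-(n : ℤ)) * f τ) ∧
      ∀ τ, F (ModularGroup.T • τ) - F τ = qCoeff f n := by
  choose P hP hPT using fun j : ℕ => infty_exists_prim_qq_zpow ((j : ℤ) - n)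
  obtain ⟨ψ, hψ, hψT⟩ := exists_periodic_prim (L := 1) one_pos (tail_mdiff f n)
    (fun τ => by rw [pow_one]; exact tail_T f n τ) (tail_zero f n)
  refine ⟨ψ + fun τ => ∑ j ∈ Finset.Icc 1 n, qCoeff f j * P j τ, ?_, fun τ => ?_⟩
  · have h1 := hψ.add (IsPrim.sum (Finset.Icc 1 n)
      (G := fun j τ => qCoeff f j * P j τ) (g := fun j τ => qCoeff f j * qq τ ^ ((j : ℤ) - n))
      (fun j _ => (hP j).const_mul (qCoeff f j)))
    have e : (fun τ => qq τ ^ (-(n : ℤ)) * f τ) =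
        tail f n + fun τ => ∑ j ∈ Finset.Icc 1 n, qCoeff f j * qq τ ^ ((j : ℤ) - n) := by
      funext τ
      have h2 : ∀ j : ℕ, qCoeff f j * qq τ ^ ((j : ℤ) - n) =
          qq τ ^ (-(n : ℤ)) * (qCoeff f j * qq τ ^ j) := by
        intro j
        rw [sub_eq_add_neg, zpow_add₀ (qq_ne_zero τ), zpow_natCast]
        ring
      simp only [Pi.add_apply, tail, h2, ← Finset.mul_sum]
      ring
    rw [e]
    exact h1
  · have h1 := hψT τ
    rw [pow_one] at h1
    simp only [Pi.add_apply]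
    rw [h1, add_sub_add_left_eq_sub, ← Finset.sum_sub_distrib]
    have h2 : ∀ j ∈ Finset.Icc 1 n, qCoeff f j * P j (ModularGroup.T • τ) - qCoeff f j * P j τ =
        if j = n then qCoeff f j else 0 := by
      intro j _
      rw [← mul_sub, hPT j τ]
      by_cases hj : j = n
      · subst hj
        simp
      · have hj' : (j : ℤ) - n ≠ 0 := by
          intro h
          apply hj
          omega
        rw [if_neg hj', if_neg hj, mul_zero]
    rw [Finset.sum_congr rfl h2, Finset.sum_ite_eq' (Finset.Icc 1 n) n,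
      if_pos (Finset.mem_Icc.2 ⟨hn, le_rfl⟩)]

/-- a primitive of `β f` with period `∑ c_n a_n(f)` -/
theorem exists_prim_mul {N : ℕ} (β : ℍ → ℂ) (hβ : MDiff β)
    (hT : ∀ τ, β (ModularGroup.T • τ) = β τ) (m : ℕ) (c : ℕ → ℂ)
    (hpol : IsBoundedAtImInfty (fun τ => β τ - ∑ n ∈ Finset.Icc 1 m, c n * qq τ ^ (-(n : ℤ))))
    (f : CuspForm (Gamma0 N) 2) :
    ∃ G : ℍ → ℂ, IsPrim G (fun τ => β τ * f τ) ∧
      ∀ τ, G (ModularGroup.T • τ) - G τ = ∑ n ∈ Finset.Icc 1 m, c n * qCoeff f n := by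
  have hfm : MDiff (f : ℍ → ℂ) := by
    have h := tail_mdiff f 0
    rwa [infty_tail_zero_eq] at h
  have hfT : ∀ τ, f (ModularGroup.T • τ) = f τ := by
    intro τ
    have h := tail_T f 0 τ
    rwa [infty_tail_zero_eq] at h
  have hf0 : IsZeroAtImInfty (f : ℍ → ℂ) := by
    have h := tail_zero f 0
    rwa [infty_tail_zero_eq] at h
  -- the polar part is holomorphic
  have hQ : MDiff (fun τ => ∑ n ∈ Finset.Icc 1 m, c n * qq τ ^ (-(n : ℤ))) := by
    have h1 := IsPrim.sum (Finset.Icc 1 m)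
      (G := fun n τ => (c n * (2 * π * I * (-(n : ℤ) : ℤ))) *
        (qq τ ^ (-(n : ℤ)) / (2 * π * I * (-(n : ℤ) : ℤ))))
      (g := fun n τ => (c n * (2 * π * I * (-(n : ℤ) : ℤ))) * qq τ ^ (-(n : ℤ)))
      (fun n hn => (isPrim_qq_zpow (-(n : ℤ)) (by
        have := (Finset.mem_Icc.1 hn).1
        omega)).const_mul _)
    have e : (fun τ => ∑ n ∈ Finset.Icc 1 m, c n * qq τ ^ (-(n : ℤ))) =
        fun τ => ∑ n ∈ Finset.Icc 1 m, (c n * (2 * π * I * (-(n : ℤ) : ℤ))) *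
          (qq τ ^ (-(n : ℤ)) / (2 * π * I * (-(n : ℤ) : ℤ))) := by
      funext τ
      refine Finset.sum_congr rfl fun n hn => ?_
      have hn1 := (Finset.mem_Icc.1 hn).1
      have h2 : (2 * π * I * (-(n : ℤ) : ℤ) : ℂ) ≠ 0 := by
        have h3 : ((-(n : ℤ) : ℤ) : ℂ) ≠ 0 := by
          have h4 : (-(n : ℤ) : ℤ) ≠ 0 := by omega
          exact_mod_cast h4
        exact mul_ne_zero Complex.two_pi_I_ne_zero h3
      rw [mul_assoc, mul_div_cancel₀ _ h2]
    rw [e]
    exact h1.infty_mdiff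
  obtain ⟨ψ, hψ, hψT⟩ := exists_periodic_prim (L := 1) one_pos
    (φ := (fun τ => β τ - ∑ n ∈ Finset.Icc 1 m, c n * qq τ ^ (-(n : ℤ))) * (f : ℍ → ℂ))
    ((hβ.sub hQ).mul hfm)
    (fun τ => by
      rw [pow_one]
      simp only [Pi.mul_apply, hT, hfT, qq_T_smul])
    (by
      have h1 : (fun τ => β τ - ∑ n ∈ Finset.Icc 1 m, c n * qq τ ^ (-(n : ℤ))) =O[atImInfty]
          (fun _ => (1 : ℝ)) := hpol
      have h2 : (f : ℍ → ℂ) =o[atImInfty] (fun _ => (1 : ℝ)) :=
        (Asymptotics.isLittleO_one_iff ℝ).2 hf0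
      have h3 := h1.mul_isLittleO h2
      simp only [mul_one] at h3
      exact (Asymptotics.isLittleO_one_iff ℝ).1 h3)
  choose! F hF hFT using fun (n : ℕ) (hn : 1 ≤ n) => exists_prim_qpow_mul f n hn
  refine ⟨ψ + fun τ => ∑ n ∈ Finset.Icc 1 m, c n * F n τ, ?_, fun τ => ?_⟩
  · have h1 := hψ.add (IsPrim.sum (Finset.Icc 1 m)
      (G := fun n τ => c n * F n τ) (g := fun n τ => c n * (qq τ ^ (-(n : ℤ)) * f τ))
      (fun n hn => (hF n (Finset.mem_Icc.1 hn).1).const_mul (c n)))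
    have e : (fun τ => β τ * f τ) =
        (fun τ => β τ - ∑ n ∈ Finset.Icc 1 m, c n * qq τ ^ (-(n : ℤ))) * (f : ℍ → ℂ) +
          fun τ => ∑ n ∈ Finset.Icc 1 m, c n * (qq τ ^ (-(n : ℤ)) * f τ) := by
      funext τ
      simp only [Pi.add_apply, Pi.mul_apply, sub_mul, Finset.sum_mul, mul_assoc]
      ring
    rw [e]
    exact h1
  · have h1 := hψT τ
    rw [pow_one] at h1
    simp only [Pi.add_apply]
    rw [h1, add_sub_add_left_eq_sub, ← Finset.sum_sub_distrib]
    refine Finset.sum_congr rfl fun n hn => ?_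
    rw [← mul_sub, hFT n (Finset.mem_Icc.1 hn).1 τ]

theorem sub_of_T_pow {G : ℍ → ℂ} {a : ℂ} (h : ∀ τ, G (ModularGroup.T • τ) - G τ = a) (L : ℕ)
    (τ : ℍ) : G (ModularGroup.T ^ L • τ) - G τ = L * a := by
  induction L with
  | zero => simp
  | succ L ih =>
    rw [pow_succ', mul_smul]
    have h1 := h (ModularGroup.T ^ L • τ)
    push_cast
    linear_combination h1 + ih

end Fermat.Agent.S44.F.I1
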