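/-
S44, node F, block (I1) (owner helper102), leaf B (helper141): the other cusps.
-/
import Fermat.Agent.S44.F.I1.Prim
import Fermat.Agent.S44.F.I1.Group

set_option autoImplicit false

namespace Fermat.Agent.S44.F.I1

open UpperHalfPlane hiding I
open Complex Filter Topology Function CongruenceSubgroup ModularFormClass
open scoped Manifold Real MatrixGroups ModularForm


/-! ### Leaf B: the other cusps -/

theorem slash_mul_apply {N : ℕ} (β : ℍ → ℂ) (f : CuspForm (Gamma0 N) 2) (γ : SL(2, ℤ)) (τ : ℍ) :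
    ((fun τ => β τ * f τ) ∣[(2 : ℤ)] γ) τ = β (γ • τ) * ((f : ℍ → ℂ) ∣[(2 : ℤ)] γ) τ := by
  rw [ModularForm.SL_slash_apply, ModularForm.SL_slash_apply, mul_assoc]

theorem slash_invariant {N : ℕ} (β : ℍ → ℂ) (hinv : ∀ γ ∈ Gamma0 N, ∀ τ, β (γ • τ) = β τ)
    (f : CuspForm (Gamma0 N) 2) (γ : SL(2, ℤ)) (hγ : γ ∈ Gamma0 N) :
    (fun τ => β τ * f τ) ∣[(2 : ℤ)] γ = fun τ => β τ * f τ := by
  funext τ
  have hf : (f : ℍ → ℂ) ∣[(2 : ℤ)] γ = f :=
    SlashInvariantFormClass.slash_action_eq f _ (Subgroup.mem_map_of_mem _ hγ)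
  rw [slash_mul_apply, hinv γ hγ, hf]

theorem slash_T_pow_apply (h : ℍ → ℂ) (L : ℕ) (τ : ℍ) :
    (h ∣[(2 : ℤ)] (ModularGroup.T ^ L : SL(2, ℤ))) τ = h (ModularGroup.T ^ L • τ) := by
  rw [ModularForm.SL_slash_apply]
  have hd : denom ((ModularGroup.T ^ L : SL(2, ℤ)) : GL (Fin 2) ℝ) τ = 1 := by
    have h1 : (ModularGroup.T ^ L : SL(2, ℤ)) = ModularGroup.T ^ (L : ℤ) := (zpow_natCast _ _).symm
    rw [h1, ModularGroup.denom_apply, ModularGroup.coe_T_zpow]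
    simp
  rw [hd]
  simp

/-- the primitives of `(β f)|γ` are invariant under `T ^ N` if `β ∘ γ` is bounded at `i∞` -/
theorem other_cusp {N : ℕ} [NeZero N] (β : ℍ → ℂ) (hβ : MDiff β)
    (hinv : ∀ γ ∈ Gamma0 N, ∀ τ, β (γ • τ) = β τ) (f : CuspForm (Gamma0 N) 2) (γ : SL(2, ℤ))
    (hreg : IsBoundedAtImInfty (fun τ => β (γ • τ))) {G : ℍ → ℂ}
    (hG : IsPrim G (fun τ => β τ * f τ)) (τ : ℍ) :
    G (γ • (ModularGroup.T ^ N • τ)) = G (γ • τ) := by
  set g : ℍ → ℂ := fun τ => β τ * f τ with hg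
  set h : ℍ → ℂ := g ∣[(2 : ℤ)] γ with hh
  have hgd : MDiff g := hβ.mul (CuspFormClass.holo f)
  have hhol : MDiff h := hgd.slash 2 γ
  have hper : ∀ τ, h (ModularGroup.T ^ N • τ) = h τ := by
    intro τ
    rw [← slash_T_pow_apply h N τ, hh, ← SlashAction.slash_mul]
    have e : γ * ModularGroup.T ^ N = (γ * ModularGroup.T ^ N * γ⁻¹) * γ := by group
    rw [e, SlashAction.slash_mul, slash_invariant β hinv f _ (conj_T_pow_mem N γ)]
  have hzero : IsZeroAtImInfty h := by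
    have h1 : h = (fun τ => β (γ • τ)) * ((f : ℍ → ℂ) ∣[(2 : ℤ)] γ) := by
      funext τ
      exact slash_mul_apply β f γ τ
    rw [h1]
    exact BoundedAtFilter.mul_zeroAtFilter hreg (CuspFormClass.zero_at_infty_slash f γ)
  obtain ⟨ψ, hψ, hψper⟩ := exists_periodic_prim (NeZero.pos N) hhol hper hzero
  have h2 := (hG.comp_smul γ).sub_const hψ (ModularGroup.T ^ N • τ) τ
  rw [hψper] at h2
  exact sub_left_injective h2

end Fermat.Agent.S44.F.I1
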