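/-
S44 / F / I1 (helper102).  **(I1)**: the constant term of `β f` vanishes.

`β` a holomorphic `Γ₀(N)`-invariant function on the upper half plane, with principal part
`∑_{1 ≤ n ≤ m} c n q^(-n)` at `i∞`, bounded at all the other cusps; `f` a cusp form of weight two.
Then `∑ c n a_n(f) = 0`.
-/
import Fermat.Agent.S44.F.I1.Core
import Fermat.Agent.S44.F.I1.Infty
import Fermat.Agent.S44.F.I1.Other

set_option autoImplicit false

namespace Fermat.Agent.S44.F.I1

open UpperHalfPlane CongruenceSubgroup ModularFormClass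
open scoped MatrixGroups Manifold ModularForm

theorem const_term_vanishes (N : ℕ) [NeZero N] (β : ℍ → ℂ) (hβ : MDiff β)
    (hinv : ∀ γ ∈ Gamma0 N, ∀ τ, β (γ • τ) = β τ) (m : ℕ) (c : ℕ → ℂ)
    (hpol : IsBoundedAtImInfty (fun τ => β τ - ∑ n ∈ Finset.Icc 1 m, c n * qq τ ^ (-(n : ℤ))))
    (hreg : ∀ γ : SL(2, ℤ), γ ∉ Gamma0 N → IsBoundedAtImInfty (fun τ => β (γ • τ)))
    (f : CuspForm (Gamma0 N) 2) :
    ∑ n ∈ Finset.Icc 1 m, c n * qCoeff f n = 0 := by
  have hTmem : ModularGroup.T ∈ Gamma0 N := by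
    rw [Gamma0_mem]
    simp [ModularGroup.T]
  obtain ⟨G, hG, hper⟩ := exists_prim_mul β hβ (fun τ => hinv _ hTmem τ) m c hpol f
  have h1 := core N hG (fun γ hγ => slash_invariant β hinv f γ hγ) N
    (fun γ hγ τ => other_cusp β hβ hinv f γ (hreg γ hγ) hG τ) UpperHalfPlane.I
  have h2 := sub_of_T_pow hper N UpperHalfPlane.I
  rw [h1, sub_self] at h2
  have hN : (N : ℂ) ≠ 0 := by exact_mod_cast NeZero.ne N
  exact (mul_eq_zero.1 h2.symm).resolve_left hN

end Fermat.Agent.S44.F.I1
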